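/-
GATE-E / E10 EIGEN (helper8): **a characteristic-zero point of the weight-2 Hecke algebra with the
Frobenius traces of `W` as values is a modular parametrisation of `W`** (frozen
`WeierstrassCurve.IsModularModelOfLevel`).

`χ : heckeAlgebra N 2 S →+* D`, `D` a domain of characteristic zero (e.g. the `𝒪`-point of `T_Σ`
given by `R_Σ ≅ T_Σ` and `ρ_W`), `χ (T_ℓ) = a_ℓ(W)` for the good primes `ℓ ∤ N` (none of them in
`S`).  helper83's `GB/B7/Point.exists_eigenform_of_point_set` (Deligne–Serre + multiplicity one for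
the full Hecke algebra) gives a Prelude `IsNormalizedEigenform` `G` of level `Γ₀(N)` and an
injective `ι : χ.range →+* ℂ` with `a_ℓ(G) = ι (χ T_ℓ)`; `ι` fixes the integers.
-/
import Mathlib
import Fermat.Agent.GB.B7.Point

set_option autoImplicit false

open ModularFormClass CongruenceSubgroup UpperHalfPlane CuspForm WeierstrassCurve

namespace Fermat.Agent.GE10

/-- **E10.**  A point of the Hecke algebra with values `a_ℓ(W)` makes `W` modular of level `N`. -/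
theorem isModularModelOfLevel_of_point (W : WeierstrassCurve ℤ) {N : ℕ} [NeZero N] (S : Set ℕ)
    (hS : ∀ ℓ : ℕ, ℓ.Prime → W.IsGoodPrimeFor ℓ → ¬ ℓ ∣ N → ℓ ∉ S)
    {D : Type*} [CommRing D] [IsDomain D] [CharZero D]
    (χ : ↥(heckeAlgebra N 2 S) →+* D)
    (hχ : ∀ (ℓ : ℕ) (hℓ : ℓ.Prime) (hℓN : ¬ ℓ ∣ N) (hℓS : ℓ ∉ S), W.IsGoodPrimeFor ℓ →
      χ (heckeAlgebra.T hℓ hℓN hℓS) = ((W.apOfModel ℓ : ℤ) : D)) :
    W.IsModularModelOfLevel N := by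
  obtain ⟨ι, -, G, hG, hT, -⟩ := Fermat.Agent.GB.B7.Point.exists_eigenform_of_point_set S χ
  refine ⟨G, hG, fun ℓ hℓ hgood hℓN => ?_⟩
  have hℓS : ℓ ∉ S := hS ℓ hℓ hgood hℓN
  rw [hT ℓ hℓ hℓN hℓS]
  have h1 : χ.rangeRestrict (heckeAlgebra.T hℓ hℓN hℓS) = ((W.apOfModel ℓ : ℤ) : ↥χ.range) := by
    apply Subtype.ext
    rw [RingHom.coe_rangeRestrict, hχ ℓ hℓ hℓN hℓS hgood]
    exact (map_intCast χ.range.subtype _).symm
  rw [h1, map_intCast]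

/-- the statement of E10 as a `Prop` (pattern of GRAPH v0, R4) -/
def EigenStmt : Prop :=
  ∀ (W : WeierstrassCurve ℤ) (N : ℕ) [NeZero N] (S : Set ℕ),
    (∀ ℓ : ℕ, ℓ.Prime → W.IsGoodPrimeFor ℓ → ¬ ℓ ∣ N → ℓ ∉ S) →
    ∀ (D : Type) [CommRing D] [IsDomain D] [CharZero D] (χ : ↥(heckeAlgebra N 2 S) →+* D),
      (∀ (ℓ : ℕ) (hℓ : ℓ.Prime) (hℓN : ¬ ℓ ∣ N) (hℓS : ℓ ∉ S), W.IsGoodPrimeFor ℓ →
        χ (heckeAlgebra.T hℓ hℓN hℓS) = ((W.apOfModel ℓ : ℤ) : D)) →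
      W.IsModularModelOfLevel N

theorem eigenStmt : EigenStmt := fun W _ _ S hS _ _ _ _ χ hχ =>
  isModularModelOfLevel_of_point W S hS χ hχ

/-- **E10 in the `IsModularModel` form**: for the level of the Hecke algebra. -/
theorem isModularModel_of_point (W : WeierstrassCurve ℤ) {N : ℕ} [NeZero N] (S : Set ℕ)
    (hS : ∀ ℓ : ℕ, ℓ.Prime → W.IsGoodPrimeFor ℓ → ¬ ℓ ∣ N → ℓ ∉ S)
    {D : Type*} [CommRing D] [IsDomain D] [CharZero D]
    (χ : ↥(heckeAlgebra N 2 S) →+* D)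
    (hχ : ∀ (ℓ : ℕ) (hℓ : ℓ.Prime) (hℓN : ¬ ℓ ∣ N) (hℓS : ℓ ∉ S), W.IsGoodPrimeFor ℓ →
      χ (heckeAlgebra.T hℓ hℓN hℓS) = ((W.apOfModel ℓ : ℤ) : D)) :
    W.IsModularModel :=
  ⟨N, Nat.pos_of_ne_zero (NeZero.ne N), isModularModelOfLevel_of_point W S hS χ hχ⟩

end Fermat.Agent.GE10
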